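import Mathlib
import Fermat.Agent.S28.IndepOverField
import Fermat.Agent.S28.Char0Degree
import Fermat.Agent.S28.ReductionLattice

/-!
# S18 [CUSP] — the degree `[F_{N,k} : k(j̄)] = ψ(N)` in characteristic `ℓ ∤ N` (helper16)

`k` any field of characteristic `ℓ ∤ N`, `F_{N,k} = modularFunctionFieldFullC k N ⊆ k((q))`.

* `exists_lifts_basis` : there are `ψ(N)` elements `X i ∈ ℤ[j(q^d) : d ∣ N]` whose reductions are
  `k(j̄)`-linearly independent and span `F_{N,k}` over `k(j̄)` (ambient form, inside `k((q))`);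
* `finrank_fullC`      : `Module.finrank k⟮j̄⟯ F_{N,k} = ψ(N)` (subtype form, `j̄ = jk k N`).

Lower bound: the S28 field core (`CruxMain.hasIndepLifts`, base-changed).  Upper bound: the
characteristic-zero degree bound `S28.degreeLe` and the S28 lattice lemma
`Reduction.exists_integral_coeffs` over `ℤ_(ℓ)`, then base change `𝔽_ℓ → k`.
-/

set_option autoImplicit false

namespace Fermat.Agent.S18.CuspEmb

open ModularCurve Polynomial

section Generic

/-- A finitely generated `K0`-subspace of a field `Ω` which contains `1` and `S` and is stable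
under multiplication contains the field generated by `S`. -/
theorem adjoin_le_span_of_mul {k Ω : Type*} [Field k] [Field Ω] [Algebra k Ω]
    (K0 : IntermediateField k Ω) {n : ℕ} (w : Fin n → Ω) (S : Set Ω)
    (h1 : (1 : Ω) ∈ Submodule.span K0 (Set.range w))
    (hmul : ∀ i j, w i * w j ∈ Submodule.span K0 (Set.range w))
    (hS : ∀ s ∈ S, s ∈ Submodule.span K0 (Set.range w))
    {y : Ω} (hy : y ∈ IntermediateField.adjoin k S) : y ∈ Submodule.span K0 (Set.range w) := by
  set V := Submodule.span K0 (Set.range w) with hV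
  have hmulV : ∀ {a b : Ω}, a ∈ V → b ∈ V → a * b ∈ V := by
    intro a b ha hb
    induction ha using Submodule.span_induction with
    | mem v hv =>
      obtain ⟨i, rfl⟩ := hv
      induction hb using Submodule.span_induction with
      | mem u hu =>
        obtain ⟨j, rfl⟩ := hu
        exact hmul i j
      | zero => rw [mul_zero]; exact zero_mem _
      | add u v _ _ hu hv => rw [mul_add]; exact add_mem hu hv
      | smul r v _ hv => rw [mul_smul_comm]; exact Submodule.smul_mem _ _ hv
    | zero => rw [zero_mul]; exact zero_mem _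
    | add u v _ _ hu hv => rw [add_mul]; exact add_mem hu hv
    | smul r v _ hv => rw [smul_mul_assoc]; exact Submodule.smul_mem _ _ hv
  have hinv : ∀ {a : Ω}, a ∈ V → a⁻¹ ∈ V := by
    intro a ha
    by_cases ha0 : a = 0
    · rw [ha0, inv_zero]; exact zero_mem _
    have hfin : Module.Finite K0 V := Module.Finite.span_of_finite _ (Set.finite_range _)
    let m : V →ₗ[K0] V :=
      { toFun := fun v => ⟨a * v, hmulV ha v.2⟩
        map_add' := fun u v => Subtype.ext (by simp [mul_add])
        map_smul' := fun r v => Subtype.ext (by simp) }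
    have hinj : Function.Injective m := by
      intro u v huv
      have h1 : a * (u : Ω) = a * (v : Ω) := congrArg Subtype.val huv
      exact Subtype.ext (mul_left_cancel₀ ha0 h1)
    obtain ⟨v, hv⟩ := (LinearMap.injective_iff_surjective.mp hinj) ⟨1, h1⟩
    have h2 : a * (v : Ω) = 1 := congrArg Subtype.val hv
    rw [← eq_inv_of_mul_eq_one_right h2]
    exact v.2
  let T : IntermediateField k Ω :=
    { carrier := V
      mul_mem' := fun ha hb => hmulV ha hb
      one_mem' := h1
      add_mem' := fun ha hb => V.add_mem ha hb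
      zero_mem' := V.zero_mem
      algebraMap_mem' := fun c => by
        have h3 : algebraMap k Ω c =
            (⟨algebraMap k Ω c, K0.algebraMap_mem c⟩ : K0) • (1 : Ω) := by
          show _ = algebraMap k Ω c * 1
          rw [mul_one]
        show algebraMap k Ω c ∈ V
        rw [h3]
        exact V.smul_mem _ h1
      inv_mem' := fun a ha => hinv ha }
  have hle : IntermediateField.adjoin k S ≤ T := IntermediateField.adjoin_le_iff.mpr hS
  exact hle hy

/-- Coefficientwise base change maps `k₀(j̄)` into `k(j̄)`. -/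
lemma coeffMap_mem_adjoin_jq {k₀ k : Type*} [Field k₀] [Field k] (φ : k₀ →+* k)
    {r : LaurentSeries k₀} (hr : r ∈ IntermediateField.adjoin k₀ {jqModC k₀}) :
    coeffMap φ r ∈ IntermediateField.adjoin k {jqModC k} := by
  obtain ⟨P, D, rfl⟩ := (IntermediateField.mem_adjoin_simple_iff k₀ _).mp hr
  have haeval : ∀ P : k₀[X],
      coeffMap φ (aeval (jqModC k₀) P) = aeval (jqModC k) (P.map φ) := by
    intro P
    rw [aeval_def, aeval_def, eval₂_map, hom_eval₂, coeffMap_jqModC]
    congr 1
    ext c : 1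
    show coeffMap φ (algebraMap k₀ (LaurentSeries k₀) c) = algebraMap k (LaurentSeries k) (φ c)
    rw [algebraMap_laurentSeries_eq_single, algebraMap_laurentSeries_eq_single, coeffMap_single]
  rw [map_div₀, haeval, haeval]
  exact div_mem
    (IntermediateField.algebra_adjoin_le_adjoin k _ (aeval_mem_adjoin_singleton k _))
    (IntermediateField.algebra_adjoin_le_adjoin k _ (aeval_mem_adjoin_singleton k _))

end Generic

section Upper

open Fermat.Agent.S28 Fermat.Agent.S28.Reduction

variable (N : ℕ) [NeZero N] (ℓ : ℕ) [Fact ℓ.Prime]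

/-- Over `𝔽_ℓ`: the reduction of an element of `ℤ[j(q^d) : d ∣ N]` is an `𝔽_ℓ(j̄)`-combination of
the reductions of the lifts. -/
lemma coeffMap_zmod_eq_sum (X : Fin (dedekindPsi N) → LaurentSeries ℤ) (hX : ∀ i, X i ∈ jRing N)
    (hind : LinearIndependent (IntermediateField.adjoin (ZMod ℓ) {jqModC (ZMod ℓ)})
      (fun i => coeffMap (Int.castRingHom (ZMod ℓ)) (X i)))
    (Z : LaurentSeries ℤ) (hZ : Z ∈ jRing N) :
    ∃ r : Fin (dedekindPsi N) → LaurentSeries (ZMod ℓ),
      (∀ i, r i ∈ IntermediateField.adjoin (ZMod ℓ) {jqModC (ZMod ℓ)}) ∧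
      coeffMap (Int.castRingHom (ZMod ℓ)) Z =
        ∑ i, r i * coeffMap (Int.castRingHom (ZMod ℓ)) (X i) := by
  have hdeg : DegreeLe N := fun n x hx hli => degreeLe N n x hx hli
  let x : Fin (dedekindPsi N) → Ocal ℓ :=
    fun i => ⟨coeffMap (Int.castRingHom ℚ) (X i), coeffMap_int_mem_Ocal ℓ (X i)⟩
  have hx : LinearIndependent (IntermediateField.adjoin (ZMod ℓ) {jqModC (ZMod ℓ)})
      (fun i => red ℓ (x i)) := by
    have : (fun i => red ℓ (x i)) = fun i => coeffMap (Int.castRingHom (ZMod ℓ)) (X i) :=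
      funext fun i => red_coeffMap_int ℓ (X i)
    rw [this]; exact hind
  have hxF : ∀ i, (x i : LaurentSeries ℚ) ∈ modularFunctionFieldFull N :=
    fun i => coeffMap_int_mem_full N (X i) (hX i)
  obtain ⟨c, hcK, hcO, hzc⟩ := exists_integral_coeffs ℓ N hdeg x hx hxF
    (coeffMap (Int.castRingHom ℚ) Z) (coeffMap_int_mem_full N Z hZ) (coeffMap_int_mem_Ocal ℓ Z)
  refine ⟨fun i => red ℓ ⟨c i, hcO i⟩, fun i => red_mem_k0 ℓ ⟨c i, hcO i⟩ (hcK i), ?_⟩
  have hsub : (⟨_, coeffMap_int_mem_Ocal ℓ Z⟩ : Ocal ℓ) = ∑ i, (⟨c i, hcO i⟩ : Ocal ℓ) * x i := by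
    apply Subtype.ext
    rw [AddSubmonoidClass.coe_finsetSum]
    exact hzc
  rw [← red_coeffMap_int ℓ Z, hsub, map_sum]
  refine Finset.sum_congr rfl fun i _ => ?_
  rw [map_mul]
  congr 1
  exact red_coeffMap_int ℓ (X i)

/-- Over any field `k` of characteristic `ℓ`: the reduction of an element of `ℤ[j(q^d) : d ∣ N]`
lies in the `k(j̄)`-span of the reductions of the lifts. -/
lemma coeffMap_mem_span (k : Type*) [Field k] [CharP k ℓ]
    (X : Fin (dedekindPsi N) → LaurentSeries ℤ) (hX : ∀ i, X i ∈ jRing N)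
    (hind : LinearIndependent (IntermediateField.adjoin (ZMod ℓ) {jqModC (ZMod ℓ)})
      (fun i => coeffMap (Int.castRingHom (ZMod ℓ)) (X i)))
    (Z : LaurentSeries ℤ) (hZ : Z ∈ jRing N) :
    coeffMap (Int.castRingHom k) Z ∈ Submodule.span (IntermediateField.adjoin k {jqModC k})
      (Set.range fun i => coeffMap (Int.castRingHom k) (X i)) := by
  obtain ⟨r, hr, hZr⟩ := coeffMap_zmod_eq_sum N ℓ X hX hind Z hZ
  have hcomp : ∀ Y : LaurentSeries ℤ, coeffMap (ZMod.castHom (dvd_refl ℓ) k)
      (coeffMap (Int.castRingHom (ZMod ℓ)) Y) = coeffMap (Int.castRingHom k) Y := by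
    intro Y
    rw [coeffMap_coeffMap]
    exact coeffMap_congr (RingHom.ext_int _ _) _
  have h1 := congrArg (coeffMap (ZMod.castHom (dvd_refl ℓ) k)) hZr
  rw [hcomp, map_sum] at h1
  rw [h1]
  refine Submodule.sum_mem _ fun i _ => ?_
  rw [map_mul, hcomp]
  have h2 : coeffMap (ZMod.castHom (dvd_refl ℓ) k) (r i) * coeffMap (Int.castRingHom k) (X i) =
      (⟨coeffMap (ZMod.castHom (dvd_refl ℓ) k) (r i),
        coeffMap_mem_adjoin_jq (ZMod.castHom (dvd_refl ℓ) k) (hr i)⟩ :
        IntermediateField.adjoin k {jqModC k}) • coeffMap (Int.castRingHom k) (X i) := rfl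
  rw [h2]
  exact Submodule.smul_mem _ _ (Submodule.subset_span ⟨i, rfl⟩)

/-- **Basis of `F_{N,k}` over `k(j̄)`** (ambient form): `ψ(N)` elements of `ℤ[j(q^d) : d ∣ N]`
whose reductions are independent over `k(j̄)` and span `F_{N,k}`. -/
theorem exists_lifts_basis (hℓN : ¬ ℓ ∣ N) (k : Type*) [Field k] [CharP k ℓ] :
    ∃ X : Fin (dedekindPsi N) → LaurentSeries ℤ, (∀ i, X i ∈ jRing N) ∧
      LinearIndependent (IntermediateField.adjoin k {jqModC k})
        (fun i => coeffMap (Int.castRingHom k) (X i)) ∧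
      ∀ y ∈ modularFunctionFieldFullC k N,
        y ∈ Submodule.span (IntermediateField.adjoin k {jqModC k})
          (Set.range fun i => coeffMap (Int.castRingHom k) (X i)) := by
  obtain ⟨X, hX, hli⟩ := CruxMain.hasIndepLifts N ℓ hℓN
  have hcomp : ∀ i, coeffMap (ZMod.castHom (dvd_refl ℓ) k)
      (coeffMap (Int.castRingHom (ZMod ℓ)) (X i)) = coeffMap (Int.castRingHom k) (X i) := by
    intro i
    rw [coeffMap_coeffMap]
    exact coeffMap_congr (RingHom.ext_int _ _) _
  have hlik : LinearIndependent (IntermediateField.adjoin k {jqModC k})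
      (fun i => coeffMap (Int.castRingHom k) (X i)) := by
    have h := IndepOverField.linearIndependent_coeffMap (ZMod.castHom (dvd_refl ℓ) k)
      (jqModC (ZMod ℓ)) (CruxDescent.transcendental_jqModC (ZMod ℓ)) _ hli
    rw [ModularCurve.coeffMap_jqModC] at h
    simpa only [hcomp] using h
  refine ⟨X, hX, hlik, fun y hy => ?_⟩
  refine adjoin_le_span_of_mul (IntermediateField.adjoin k {jqModC k})
    (fun i => coeffMap (Int.castRingHom k) (X i)) (divisorExpansionsC k N) ?_ ?_ ?_ hy
  · have := coeffMap_mem_span N ℓ k X hX hli 1 (jRing N).one_mem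
    rwa [map_one] at this
  · intro i j
    have := coeffMap_mem_span N ℓ k X hX hli (X i * X j) ((jRing N).mul_mem (hX i) (hX j))
    rwa [map_mul] at this
  · rintro s ⟨d, hd, hdN, rfl⟩
    have h1 : qExpand ℤ d (jqModC ℤ) ∈ jRing N := Subring.subset_closure ⟨d, hd, hdN, rfl⟩
    have := coeffMap_mem_span N ℓ k X hX hli _ h1
    rwa [coeffMap_qExpand, coeffMap_jqModC] at this

end Upper

section Finrank

open Fermat.Agent.S28 IntermediateField

variable (k : Type*) [Field k] (N : ℕ)

/-- `j̄` as an element of `F_{N,k}`. -/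
noncomputable def jk : ↥(modularFunctionFieldFullC k N) := ⟨jqModC k, jqModC_mem_full k N⟩

@[simp] lemma coe_jk : ((jk k N : ↥(modularFunctionFieldFullC k N)) : LaurentSeries k) = jqModC k :=
  rfl

lemma coe_aeval_jk (P : k[X]) :
    ((aeval (jk k N) P : ↥(modularFunctionFieldFullC k N)) : LaurentSeries k) =
      aeval (jqModC k) P := by
  have h := aeval_algHom_apply (modularFunctionFieldFullC k N).val (jk k N) P
  exact h.symm

variable [NeZero N] (ℓ : ℕ) [Fact ℓ.Prime]

/-- **Degree.** `[F_{N,k} : k(j̄)] = ψ(N)` for every field `k` of characteristic `ℓ ∤ N`. -/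
theorem finrank_fullC (hℓN : ¬ ℓ ∣ N) [CharP k ℓ] :
    Module.finrank k⟮jk k N⟯ ↥(modularFunctionFieldFullC k N) = dedekindPsi N := by
  obtain ⟨X, hX, hli, hspan⟩ := exists_lifts_basis N ℓ hℓN k
  let b : Fin (dedekindPsi N) → ↥(modularFunctionFieldFullC k N) :=
    fun i => ⟨coeffMap (Int.castRingHom k) (X i), IndepOverField.coeffMap_mem_fullC N k (hX i)⟩
  have hb : LinearIndependent k⟮jk k N⟯ b := by
    apply IndepOverField.linearIndependent_adjoin_of_poly
    intro P hP i
    have h1 : ∑ i, aeval (jqModC k) (P i) * coeffMap (Int.castRingHom k) (X i) = 0 := by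
      have h2 := congrArg (Subtype.val : ↥(modularFunctionFieldFullC k N) → LaurentSeries k) hP
      rw [AddSubmonoidClass.coe_finsetSum] at h2
      rw [← (show ((0 : ↥(modularFunctionFieldFullC k N)) : LaurentSeries k) = 0 from rfl), ← h2]
      refine Finset.sum_congr rfl fun i _ => ?_
      rw [← coe_aeval_jk k N (P i)]
      rfl
    have h3 := IndepOverField.aeval_eq_zero_of_linearIndependent (jqModC k) _ hli P h1 i
    apply Subtype.ext
    rw [coe_aeval_jk, h3]
    rfl
  have hsp : ⊤ ≤ Submodule.span k⟮jk k N⟯ (Set.range b) := by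
    intro y _
    obtain ⟨g, hg⟩ := (Submodule.mem_span_range_iff_exists_fun _).mp (hspan y y.2)
    have hlift : ∀ i, ∃ g' : k⟮jk k N⟯,
        (((g' : k⟮jk k N⟯) : ↥(modularFunctionFieldFullC k N)) : LaurentSeries k) = g i := by
      intro i
      obtain ⟨r, s, hrs⟩ := (IntermediateField.mem_adjoin_simple_iff k _).mp (g i).2
      refine ⟨⟨aeval (jk k N) r / aeval (jk k N) s,
        (IntermediateField.mem_adjoin_simple_iff k _).mpr ⟨r, s, rfl⟩⟩, ?_⟩
      rw [hrs, ← coe_aeval_jk k N r, ← coe_aeval_jk k N s]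
      rfl
    choose g' hg' using hlift
    rw [Submodule.mem_span_range_iff_exists_fun]
    refine ⟨g', Subtype.ext ?_⟩
    rw [AddSubmonoidClass.coe_finsetSum, ← hg]
    refine Finset.sum_congr rfl fun i _ => ?_
    show (((g' i : k⟮jk k N⟯) : ↥(modularFunctionFieldFullC k N)) : LaurentSeries k) *
      coeffMap (Int.castRingHom k) (X i) = _
    rw [hg']
    rfl
  have h := Module.finrank_eq_card_basis (Module.Basis.mk hb hsp)
  rw [h, Fintype.card_fin]

end Finrank

end Fermat.Agent.S18.CuspEmb
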