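import Mathlib

/-!
# S18 [CUSP] — abstract embedding lemma (helper16)

Fields `k ⊆ F`, `E`; `x α : F` such that `1, α, …, α^(d-1)` is a `k(x)`-basis of `F`
(`d = [F : k(x)]`), a `k`-embedding `e₀ : F → E`, and a family `θ : I → E`, `#I = d`, with
`∏ (X - θ i) ∈ k[e₀ x][X]` and `θ i₀ = e₀ α`.  Then

* `exists_embeddings` : there are `k`-embeddings `ι i : F → E` with `ι i x = e₀ x`, `ι i α = θ i`;
* `algHom_ext_gen`    : a `k`-algebra map out of `F` is determined by its values at `x` and `α`;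
* `isSeparable_of_injective` : if `θ` is injective then `F / k(x)` is separable.

Mathlib only.
-/

set_option autoImplicit false

namespace Fermat.Agent.S18.CuspEmb

open Polynomial IntermediateField

section Abstract

variable {k F E : Type*} [Field k] [Field F] [Field E] [Algebra k F] [Algebra k E]

/-- `k`-algebra maps out of `F` which agree at `x` agree on `k(x)`. -/
lemma algHom_apply_adjoinSimple (x : F) (f g : F →ₐ[k] E) (hx : f x = g x) (c : k⟮x⟯) :
    f (c : F) = g (c : F) := by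
  obtain ⟨r, s, hrs⟩ := (IntermediateField.mem_adjoin_simple_iff k (c : F)).mp c.2
  rw [hrs, map_div₀, map_div₀, ← aeval_algHom_apply, ← aeval_algHom_apply,
    ← aeval_algHom_apply, ← aeval_algHom_apply, hx]

/-- A `k`-algebra map out of `F = k(x)[α]` is determined by its values at `x` and `α`. -/
theorem algHom_ext_gen (x α : F) {d : ℕ}
    (hli : LinearIndependent k⟮x⟯ (fun i : Fin d => α ^ (i : ℕ)))
    (hfr : Module.finrank k⟮x⟯ F = d) (hd : 0 < d) {f g : F →ₐ[k] E}
    (hx : f x = g x) (hα : f α = g α) : f = g := by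
  have : FiniteDimensional k⟮x⟯ F := FiniteDimensional.of_finrank_pos (hfr ▸ hd)
  have hspan := hli.span_eq_top_of_card_eq_finrank' (by rw [Fintype.card_fin, hfr])
  ext y
  have hy : y ∈ Submodule.span k⟮x⟯ (Set.range fun i : Fin d => α ^ (i : ℕ)) :=
    hspan ▸ Submodule.mem_top
  induction hy using Submodule.span_induction with
  | mem v hv =>
    obtain ⟨i, rfl⟩ := hv
    rw [map_pow, map_pow, hα]
  | zero => rw [map_zero, map_zero]
  | add u v _ _ hu hv => rw [map_add, map_add, hu, hv]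
  | smul c v _ hv =>
    rw [Algebra.smul_def, map_mul, map_mul, hv]
    congr 1
    exact algHom_apply_adjoinSimple x f g hx c

variable (x α : F) {I : Type*} [Fintype I]
  (hli : LinearIndependent k⟮x⟯ (fun i : Fin (Fintype.card I) => α ^ (i : ℕ)))
  (hfr : Module.finrank k⟮x⟯ F = Fintype.card I)
  (e₀ : F →ₐ[k] E) (θ : I → E)
  (hcoeff : ∀ m, (∏ i, (X - C (θ i))).coeff m ∈ Algebra.adjoin k {e₀ x})
  (i₀ : I) (hi₀ : θ i₀ = e₀ α)

include hli hfr hcoeff hi₀ in
/-- The minimal polynomial of `α` over `k(x)` maps to `∏ (X - θ i)` under `e₀`. -/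
theorem map_minpoly_eq_prod :
    (minpoly k⟮x⟯ α).map ((e₀ : F →+* E).comp (algebraMap k⟮x⟯ F)) = ∏ i, (X - C (θ i)) := by
  classical
  have hdpos : 0 < Fintype.card I := Fintype.card_pos_iff.mpr ⟨i₀⟩
  have : FiniteDimensional k⟮x⟯ F := FiniteDimensional.of_finrank_pos (hfr ▸ hdpos)
  let b : Module.Basis (Fin (Fintype.card I)) k⟮x⟯ F :=
    basisOfLinearIndependentOfCardEqFinrank' _ hli (by rw [Fintype.card_fin, hfr])
  let pb : PowerBasis k⟮x⟯ F :=
    { gen := α, dim := Fintype.card I, basis := b, basis_eq_pow := fun i => by simp [b] }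
  set φ : k⟮x⟯ →+* E := (e₀ : F →+* E).comp (algebraMap k⟮x⟯ F) with hφ
  set P : E[X] := ∏ i, (X - C (θ i)) with hP
  have hPmonic : P.Monic := monic_prod_of_monic _ _ fun i _ => monic_X_sub_C _
  have hPdeg : P.natDegree = Fintype.card I := by
    rw [hP, natDegree_prod_of_monic _ _ (fun i _ => monic_X_sub_C _)]
    simp
  have hlifts : P ∈ lifts φ := by
    rw [lifts_iff_coeff_lifts]
    intro m
    have h1 : Algebra.adjoin k {e₀ x} ≤ ((e₀.comp (IntermediateField.val k⟮x⟯)).range) := by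
      rw [Algebra.adjoin_le_iff]
      rintro _ rfl
      exact ⟨AdjoinSimple.gen k x, rfl⟩
    obtain ⟨c, hc⟩ := h1 (hcoeff m)
    exact ⟨c, hc⟩
  obtain ⟨Q, hQmap, hQdeg, hQmonic⟩ := lifts_and_natDegree_eq_and_monic hlifts hPmonic
  have hQα : aeval α Q = 0 := by
    apply (e₀ : F →+* E).injective
    have h2 : (e₀ : F →+* E) (aeval α Q) = (Q.map φ).eval (e₀ α) := by
      rw [aeval_def, eval_map, hom_eval₂]
      rfl
    rw [h2, hQmap, map_zero, hP, eval_prod]
    exact Finset.prod_eq_zero (Finset.mem_univ i₀) (by rw [eval_sub, eval_X, eval_C, hi₀, sub_self])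
  have hdeg : (minpoly k⟮x⟯ α).natDegree = Fintype.card I := pb.natDegree_minpoly
  have hmin : Q = minpoly k⟮x⟯ α :=
    eq_of_monic_of_dvd_of_natDegree_le (minpoly.monic (IsIntegral.of_finite k⟮x⟯ α)) hQmonic
      (minpoly.dvd _ _ hQα) (by rw [hdeg, hQdeg, hPdeg])
  rw [← hmin, hQmap]

include hli hfr hcoeff hi₀ in
/-- **Existence of the embeddings.** -/
theorem exists_embeddings :
    ∃ ι : I → (F →ₐ[k] E), (∀ i, ι i x = e₀ x) ∧ (∀ i, ι i α = θ i) := by
  classical
  have hdpos : 0 < Fintype.card I := Fintype.card_pos_iff.mpr ⟨i₀⟩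
  have : FiniteDimensional k⟮x⟯ F := FiniteDimensional.of_finrank_pos (hfr ▸ hdpos)
  let b : Module.Basis (Fin (Fintype.card I)) k⟮x⟯ F :=
    basisOfLinearIndependentOfCardEqFinrank' _ hli (by rw [Fintype.card_fin, hfr])
  let pb : PowerBasis k⟮x⟯ F :=
    { gen := α, dim := Fintype.card I, basis := b, basis_eq_pow := fun i => by simp [b] }
  let φ : k⟮x⟯ →+* E := (e₀ : F →+* E).comp (algebraMap k⟮x⟯ F)
  let _ : Algebra k⟮x⟯ E := φ.toAlgebra
  have : IsScalarTower k k⟮x⟯ E := IsScalarTower.of_algebraMap_eq fun c => by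
    show algebraMap k E c = e₀ (algebraMap k⟮x⟯ F (algebraMap k k⟮x⟯ c))
    rw [← IsScalarTower.algebraMap_apply k k⟮x⟯ F, e₀.commutes]
  have hroot : ∀ i, aeval (θ i) (minpoly k⟮x⟯ pb.gen) = 0 := by
    intro i
    show aeval (θ i) (minpoly k⟮x⟯ α) = 0
    rw [aeval_def, ← eval_map]
    show ((minpoly k⟮x⟯ α).map φ).eval (θ i) = 0
    rw [map_minpoly_eq_prod x α hli hfr e₀ θ hcoeff i₀ hi₀, eval_prod]
    exact Finset.prod_eq_zero (Finset.mem_univ i) (by rw [eval_sub, eval_X, eval_C, sub_self])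
  let ι₁ : I → (F →ₐ[k⟮x⟯] E) := fun i => pb.lift (θ i) (hroot i)
  refine ⟨fun i => (ι₁ i).restrictScalars k, fun i => ?_, fun i => ?_⟩
  · show ι₁ i (algebraMap k⟮x⟯ F (AdjoinSimple.gen k x)) = e₀ x
    rw [AlgHom.commutes]
    rfl
  · exact pb.lift_gen (θ i) (hroot i)

include hli hfr hcoeff hi₀ in
/-- If the `θ i` are pairwise distinct, `F / k(x)` is separable. -/
theorem isSeparable_of_injective (hθ : Function.Injective θ) : Algebra.IsSeparable k⟮x⟯ F := by
  classical
  have hdpos : 0 < Fintype.card I := Fintype.card_pos_iff.mpr ⟨i₀⟩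
  have : FiniteDimensional k⟮x⟯ F := FiniteDimensional.of_finrank_pos (hfr ▸ hdpos)
  let b : Module.Basis (Fin (Fintype.card I)) k⟮x⟯ F :=
    basisOfLinearIndependentOfCardEqFinrank' _ hli (by rw [Fintype.card_fin, hfr])
  let pb : PowerBasis k⟮x⟯ F :=
    { gen := α, dim := Fintype.card I, basis := b, basis_eq_pow := fun i => by simp [b] }
  have hsep : IsSeparable k⟮x⟯ α := by
    show (minpoly k⟮x⟯ α).Separable
    rw [← separable_map ((e₀ : F →+* E).comp (algebraMap k⟮x⟯ F)),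
      map_minpoly_eq_prod x α hli hfr e₀ θ hcoeff i₀ hi₀, separable_prod_X_sub_C_iff]
    exact hθ
  have htop : (k⟮x⟯)⟮α⟯ = ⊤ := IntermediateField.adjoin_eq_top_of_algebra _ _ pb.adjoin_gen_eq_top
  have : Algebra.IsSeparable k⟮x⟯ (k⟮x⟯)⟮α⟯ :=
    (IntermediateField.isSeparable_adjoin_simple_iff_isSeparable _ _).mpr hsep
  have : Algebra.IsSeparable k⟮x⟯ (⊤ : IntermediateField k⟮x⟯ F) := htop ▸ this
  exact AlgEquiv.Algebra.isSeparable (IntermediateField.topEquiv (F := k⟮x⟯) (E := F))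

end Abstract

end Fermat.Agent.S18.CuspEmb
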