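import Mathlib
import Fermat.Agent.S28.CruxMain

/-!
# S18 [CUSP] — a residue homomorphism into an algebraically closed field (helper16)

For `ℓ ∤ n` and an algebraically closed field `k` of characteristic `ℓ` there is a ring
homomorphism `ℤ[ζ_n, 1/n] → k` mapping `ζ_n = exp(2πi/n)` to a primitive `n`-th root of unity.
-/

set_option autoImplicit false

namespace Fermat.Agent.S18.CuspEmb

open Fermat.Agent.Lib.DeltaExpand Fermat.Agent.S28

/-- The ring `ℤ[ζ_n, 1/n] ⊆ ℂ`. -/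
noncomputable abbrev AS (n : ℕ) : Subring ℂ := Subring.closure ({zetaN n, (n : ℂ)⁻¹} : Set ℂ)

lemma zetaN_mem_AS (n : ℕ) : zetaN n ∈ AS n := Subring.subset_closure (Set.mem_insert _ _)

lemma inv_mem_AS (n : ℕ) : (n : ℂ)⁻¹ ∈ AS n := Subring.subset_closure (by simp)

/-- **Residue homomorphism into an algebraically closed field.** -/
theorem exists_residue_hom_algClosed (n ℓ : ℕ) [NeZero n] [Fact ℓ.Prime] (hℓn : ¬ ℓ ∣ n)
    (k : Type) [Field k] [CharP k ℓ] [IsAlgClosed k] :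
    ∃ φ : ↥(AS n) →+* k, IsPrimitiveRoot (φ ⟨zetaN n, zetaN_mem_AS n⟩) n := by
  have hprim : IsPrimitiveRoot (zetaN n) n := Complex.isPrimitiveRoot_exp n (NeZero.ne n)
  obtain ⟨k₁, _, _, φ₁, hφ₁⟩ := CruxDescent.exists_residue_hom_closure n ℓ hℓn (zetaN n) hprim
  let _ : Algebra (ZMod ℓ) k₁ := ZMod.algebra k₁ ℓ
  let _ : Algebra (ZMod ℓ) k := ZMod.algebra k ℓ
  set ζ₁ : k₁ := φ₁ ⟨zetaN n, zetaN_mem_AS n⟩ with hζ₁
  have hζ₁int : IsIntegral (ZMod ℓ) ζ₁ := by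
    refine IsIntegral.of_pow (n := n) (Nat.pos_of_ne_zero (NeZero.ne n)) ?_
    rw [hφ₁.pow_eq_one]
    exact isIntegral_one
  let K₂ : IntermediateField (ZMod ℓ) k₁ := IntermediateField.adjoin (ZMod ℓ) {ζ₁}
  have hmem : ∀ a : ↥(AS n), φ₁ a ∈ K₂ := by
    rintro ⟨a, ha⟩
    induction ha using Subring.closure_induction with
    | mem x hx =>
      rcases hx with rfl | hx
      · exact IntermediateField.mem_adjoin_simple_self _ _
      · have hx' : x = (n : ℂ)⁻¹ := hx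
        subst hx'
        have h1 : ((n : ℕ) : ↥(AS n)) * ⟨(n : ℂ)⁻¹, inv_mem_AS n⟩ = 1 := by
          apply Subtype.ext
          have hn0 : (n : ℂ) ≠ 0 := Nat.cast_ne_zero.mpr (NeZero.ne n)
          simp [hn0]
        have h2 := congrArg φ₁ h1
        rw [map_mul, map_natCast, map_one] at h2
        have h3 : φ₁ ⟨(n : ℂ)⁻¹, inv_mem_AS n⟩ = ((n : ℕ) : k₁)⁻¹ := eq_inv_of_mul_eq_one_right h2
        rw [h3]
        exact inv_mem (natCast_mem _ _)
    | zero =>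
      have : φ₁ ⟨0, zero_mem _⟩ = 0 := map_zero φ₁
      rw [this]; exact zero_mem K₂
    | one =>
      have : φ₁ ⟨1, one_mem _⟩ = 1 := map_one φ₁
      rw [this]; exact one_mem K₂
    | add x y hx hy ihx ihy =>
      have : φ₁ ⟨x + y, add_mem hx hy⟩ = φ₁ ⟨x, hx⟩ + φ₁ ⟨y, hy⟩ := by
        rw [← map_add]; rfl
      rw [this]; exact add_mem ihx ihy
    | neg x hx ihx =>
      have : φ₁ ⟨-x, neg_mem hx⟩ = -φ₁ ⟨x, hx⟩ := by
        rw [← map_neg]; rfl
      rw [this]; exact neg_mem ihx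
    | mul x y hx hy ihx ihy =>
      have : φ₁ ⟨x * y, mul_mem hx hy⟩ = φ₁ ⟨x, hx⟩ * φ₁ ⟨y, hy⟩ := by
        rw [← map_mul]; rfl
      rw [this]; exact mul_mem ihx ihy
  let φ₂ : ↥(AS n) →+* ↥K₂ := φ₁.codRestrict K₂.toSubfield.toSubring hmem
  have : Algebra.IsAlgebraic (ZMod ℓ) ↥K₂ :=
    IntermediateField.isAlgebraic_adjoin_simple hζ₁int
  let f : ↥K₂ →ₐ[ZMod ℓ] k := IsAlgClosed.lift
  refine ⟨(f : ↥K₂ →+* k).comp φ₂, ?_⟩
  have h4 : IsPrimitiveRoot (φ₂ ⟨zetaN n, zetaN_mem_AS n⟩) n := by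
    refine IsPrimitiveRoot.of_map_of_injective (f := K₂.val) ?_ Subtype.val_injective
    exact hφ₁
  exact h4.map_of_injective (f := f) f.injective
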