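import Mathlib
import Fermat.Agent.S28.CruxMain
import Fermat.Agent.S28.Subst
import Fermat.Agent.S18.CuspEmb.ResidueHom

/-!
# S18 [CUSP] — the reduced conjugates of `j(nτ)` (helper16)

`θ_x ∈ k((u))`, `u = q^(1/n)`, `x ∈ SL₂(ℤ)/Γ₀(n)`: the reductions of the expansions of the
conjugates `j(n x⁻¹τ)` of `j(nτ)`.  They are pairwise distinct, `∏ (X - θ_x)` has coefficients in
`k[j(u^n)]`, `θ_1 = j(u^(n²))`, and `θ_{T⁻¹x}(u) = θ_x(ζ u)`.
-/

set_option autoImplicit false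

namespace Fermat.Agent.S18.CuspEmb

open UpperHalfPlane ModularCurve Polynomial
open scoped MatrixGroups
open CongruenceSubgroup
open Fermat.Agent.Lib.CuspInvariant Fermat.Agent.Lib.JStab Fermat.Agent.Lib.DeltaExpand
open Fermat.Agent.Lib.CuspIntJ Fermat.Agent.Lib.CuspConjPoly Fermat.Agent.Lib.CuspLaurent
open Fermat.Agent.S28 Fermat.Agent.S28.CruxMain

section

variable (n : ℕ) [NeZero n] {k : Type} [Field k] (φ : ↥(AS n) →+* k)

/-- The reduction of the expansion of the conjugate `j(n x⁻¹τ)`. -/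
noncomputable def theta (x : SL(2, ℤ) ⧸ Gamma0 n) : LaurentSeries k :=
  red n (AS n) φ (FJ n (AS n) (zetaN_mem_AS n) x)

/-- The image of `ζ_n` in `k`, as a unit. -/
noncomputable def zetaK : kˣ :=
  Units.map (φ : ↥(AS n) →* k) (zU n (AS n) (zetaN_mem_AS n))

lemma zetaK_coe : ((zetaK n φ : kˣ) : k) = φ ⟨zetaN n, zetaN_mem_AS n⟩ := rfl

lemma zetaK_isPrimitiveRoot (hφ : IsPrimitiveRoot (φ ⟨zetaN n, zetaN_mem_AS n⟩) n) :
    IsPrimitiveRoot (zetaK n φ) n :=
  IsPrimitiveRoot.coe_units_iff.mp ((zetaK_coe n φ) ▸ hφ)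

/-- The reduced conjugates are pairwise distinct. -/
theorem theta_injective (hφ : IsPrimitiveRoot (φ ⟨zetaN n, zetaN_mem_AS n⟩) n) :
    Function.Injective (theta n φ) := by
  have hN0 : n ≠ 0 := NeZero.ne n
  obtain ⟨b, hb, hbinj, hL⟩ := exists_hermite_data (A := AS n) (N := n)
    (zU n (AS n) (zetaN_mem_AS n)) (zU_coe n (AS n) (zetaN_mem_AS n))
  have hzk_prim : IsPrimitiveRoot (zetaK n φ) n := zetaK_isPrimitiveRoot n φ hφ
  have hJc : ∀ x, theta n φ x =
      jTw k (zetaK n φ ^ (cuspA n x * b x)) (cuspA n x * cuspA n x) := by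
    intro x
    rw [theta, red_apply, FJ, hL x, coeffMap_jTw, map_pow]
    rfl
  intro x y hxy
  simp only [hJc] at hxy
  have hax : cuspA n x ≠ 0 := cuspA_ne_zero n x
  have hay : cuspA n y ≠ 0 := cuspA_ne_zero n y
  obtain ⟨hE, hz⟩ := jTw_injective (mul_ne_zero hax hax) (mul_ne_zero hay hay) hxy
  have ha : cuspA n x = cuspA n y := Nat.mul_self_inj.mp hE
  have hlt : ∀ x, cuspA n x * b x < n := fun x => by
    calc cuspA n x * b x < cuspA n x * (n / cuspA n x) :=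
          Nat.mul_lt_mul_of_pos_left (hb x) (Nat.pos_of_ne_zero (cuspA_ne_zero n x))
      _ ≤ n := Nat.mul_div_le n _
  have hbb : cuspA n x * b x = cuspA n y * b y := hzk_prim.pow_inj (hlt x) (hlt y) hz
  rw [ha] at hbb
  exact hbinj (Prod.ext ha (Nat.eq_of_mul_eq_mul_left (Nat.pos_of_ne_zero hay) hbb))

/-- The symmetric functions of the reduced conjugates are polynomials in `j(u^n)`. -/
theorem theta_prod_coeff_mem [Fintype (SL(2, ℤ) ⧸ Gamma0 n)] (m : ℕ) :
    (∏ x : SL(2, ℤ) ⧸ Gamma0 n, (X - C (theta n φ x))).coeff m ∈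
      Algebra.adjoin k {qExpand k n (jqModC k)} :=
  prod_coeff_mem n (AS n) φ (jN_invariant n) _ m

/-- The conjugate at the trivial coset is `j(u^(n²))`. -/
theorem theta_one :
    theta n φ (QuotientGroup.mk 1 : SL(2, ℤ) ⧸ Gamma0 n) = qExpand k (n * n) (jqModC k) := by
  have hN0 : n ≠ 0 := NeZero.ne n
  obtain ⟨b, hb, hbinj, hL⟩ := exists_hermite_data (A := AS n) (N := n)
    (zU n (AS n) (zetaN_mem_AS n)) (zU_coe n (AS n) (zetaN_mem_AS n))
  have hJc : ∀ x, theta n φ x =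
      jTw k (zetaK n φ ^ (cuspA n x * b x)) (cuspA n x * cuspA n x) := by
    intro x
    rw [theta, red_apply, FJ, hL x, coeffMap_jTw, map_pow]
    rfl
  have h1 : cuspA n (QuotientGroup.mk 1 : SL(2, ℤ) ⧸ Gamma0 n) = n := (cuspA_eq_iff n _).mpr rfl
  have h2 : b (QuotientGroup.mk 1) = 0 := by
    have := hb (QuotientGroup.mk 1)
    rw [h1, Nat.div_self (Nat.pos_of_ne_zero hN0)] at this
    omega
  rw [hJc, h1, h2, Nat.mul_zero, pow_zero, jTw_one_eq]
  rfl

/-- **Translation.** `θ_{T⁻¹ x}(u) = θ_x(ζ u)`. -/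
theorem theta_T_inv_smul (x : SL(2, ℤ) ⧸ Gamma0 n) :
    theta n φ ((ModularGroup.T)⁻¹ • x) = scale (zetaK n φ) (theta n φ x) := by
  have hfun : conj n (jN n) (ModularGroup.T⁻¹ • x) =
      (conj n (jN n) x) ∘ (fun τ : ℍ => ModularGroup.T • τ) := by
    funext τ
    exact (conj_smul (jN_invariant n) ModularGroup.T x τ).symm
  have hm : ∀ τ : ℍ, (((fun τ : ℍ => ModularGroup.T • τ) τ : ℍ) : ℂ) = τ + ((1 : ℤ) : ℂ) := by
    intro τ
    show ((ModularGroup.T • τ : ℍ) : ℂ) = τ + ((1 : ℤ) : ℂ)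
    rw [UpperHalfPlane.modular_T_smul, UpperHalfPlane.coe_vadd]
    push_cast
    ring
  have hcoeff : ∀ j : ℤ,
      (laurentInt (AS n) n (FJ n (AS n) (zetaN_mem_AS n) (ModularGroup.T⁻¹ • x))).coeff j =
        ((zU n (AS n) (zetaN_mem_AS n) ^ j : (↥(AS n))ˣ) : ↥(AS n)) *
          (laurentInt (AS n) n (FJ n (AS n) (zetaN_mem_AS n) x)).coeff j := by
    intro j
    apply Subtype.ext
    rw [laurentInt_coeff, Subring.coe_mul, laurentInt_coeff, coe_zpow_unit, zU_coe,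
      laurent_apply, laurent_apply]
    have hmer : IsMerCusp ((n : ℕ) : ℝ) (conj n (jN n) x) :=
      intCusp_le_merCusp (FJ n (AS n) (zetaN_mem_AS n) x).2
    have key := laurentFun_translate (natCast_pos' n) hmer hm j
    have e1 : (((FJ n (AS n) (zetaN_mem_AS n) (ModularGroup.T⁻¹ • x) : intCusp (AS n) n) :
        ℍ → ℂ)) = (conj n (jN n) x) ∘ (fun τ : ℍ => ModularGroup.T • τ) := hfun
    have e2 : (((FJ n (AS n) (zetaN_mem_AS n) x : intCusp (AS n) n) : ℍ → ℂ)) =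
        conj n (jN n) x := rfl
    show (laurentFun (n : ℝ) ((FJ n (AS n) (zetaN_mem_AS n) (ModularGroup.T⁻¹ • x) :
        intCusp (AS n) n) : ℍ → ℂ)).coeff j = _ * (laurentFun (n : ℝ)
        ((FJ n (AS n) (zetaN_mem_AS n) x : intCusp (AS n) n) : ℍ → ℂ)).coeff j
    rw [e1, e2, key]
    congr 2
    push_cast
    ring_nf
  have hL : laurentInt (AS n) n (FJ n (AS n) (zetaN_mem_AS n) (ModularGroup.T⁻¹ • x)) =
      scale (zU n (AS n) (zetaN_mem_AS n))
        (laurentInt (AS n) n (FJ n (AS n) (zetaN_mem_AS n) x)) := by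
    ext j
    rw [hcoeff j, scale_coeff]
  rw [theta, red_apply, hL, coeffMap_scale]
  rfl

/-- Iterated translation. -/
theorem theta_T_inv_pow_smul (m : ℕ) (x : SL(2, ℤ) ⧸ Gamma0 n) :
    theta n φ ((ModularGroup.T⁻¹) ^ m • x) = scale (zetaK n φ ^ m) (theta n φ x) := by
  induction m with
  | zero => rw [pow_zero, one_smul, pow_zero, scale_one]
  | succ m ih =>
    rw [pow_succ', mul_smul, theta_T_inv_smul, ih, scale_scale, pow_succ']

end

end Fermat.Agent.S18.CuspEmb
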