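import Mathlib
import Fermat.Agent.S18.CuspEmb.Roots
import Fermat.Agent.S18.CuspEmb.Embed
import Fermat.Agent.S18.CuspEmb.Degree
import Fermat.Agent.Lib.Gamma0Count

/-!
# S18 [CUSP] — the `ψ(n)` embeddings of `F_{n,k}` into `k((u))` (helper16)

`k` algebraically closed of characteristic `ℓ ∤ n`, `F := F_{n,k} = modularFunctionFieldFullC k n`,
`j̄ = jk k n ∈ F`.  There are `ψ(n)` pairwise distinct `k`-embeddings
`ι x : F → k((u))`, `x ∈ SL₂(ℤ)/Γ₀(n)`, with

* `ι x j̄ = j̄(u^n)` for all `x`;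
* `ι 1 y = y(u^n)` (the standard embedding `q ↦ u^n`);
* `ι (T⁻¹ x) y = (ι x y)(ζ u)` for a primitive `n`-th root of unity `ζ`;

and `F / k(j̄)` is finite separable of degree `ψ(n)`, `j̄` transcendental over `k`.
-/

set_option autoImplicit false

namespace Fermat.Agent.S18.CuspEmb

open ModularCurve Polynomial IntermediateField
open scoped MatrixGroups
open CongruenceSubgroup
open Fermat.Agent.Lib.DeltaExpand
open Fermat.Agent.S28

section Defs

variable (n : ℕ) [NeZero n] (k : Type*) [Field k]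

/-- `j̄(q^n)` as an element of `F_{n,k}`. -/
noncomputable def jNk : ↥(modularFunctionFieldFullC k n) :=
  ⟨qExpand k n (jqModC k), jqModCd_mem_full k n dvd_rfl⟩

/-- The standard embedding `F_{n,k} → k((u))`, `q ↦ u^n`. -/
noncomputable def e0 : ↥(modularFunctionFieldFullC k n) →ₐ[k] LaurentSeries k :=
  (qExpandAlgHomC k n).comp (modularFunctionFieldFullC k n).val

lemma e0_apply (y : ↥(modularFunctionFieldFullC k n)) :
    e0 n k y = qExpand k n (y : LaurentSeries k) := rfl

lemma e0_jk : e0 n k (jk k n) = qExpand k n (jqModC k) := rfl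

lemma e0_jNk : e0 n k (jNk n k) = qExpand k (n * n) (jqModC k) := by
  show qExpand k n (qExpand k n (jqModC k)) = _
  rw [qExpand_qExpand]

/-- `scale ζ` (`u ↦ ζ u`) as a `k`-algebra map. -/
noncomputable def scaleAlgHom {k : Type*} [Field k] (ζ : kˣ) :
    LaurentSeries k →ₐ[k] LaurentSeries k :=
  { scale ζ with commutes' := scale_algebraMap ζ }

lemma scaleAlgHom_apply {k : Type*} [Field k] (ζ : kˣ) (f : LaurentSeries k) :
    scaleAlgHom ζ f = scale ζ f := rfl

omit [NeZero n] in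
/-- `j̄` is transcendental over `k`. -/
theorem transcendental_jk : Transcendental k (jk k n) := by
  rintro ⟨p, hp, hp0⟩
  apply CruxDescent.transcendental_jqModC k
  exact ⟨p, hp, by rw [← coe_aeval_jk k n p, hp0]; rfl⟩

/-- `j̄(u^n)` is supported on multiples of `n`. -/
lemma coeff_qExpand_jq_of_not_dvd {m : ℤ} (hm : ¬ (n : ℤ) ∣ m) :
    (qExpand k n (jqModC k)).coeff m = 0 :=
  qExpand_coeff_of_not_dvd n _ hm

/-- `j̄(u^n)` has a pole of order `n`. -/
lemma order_qExpand_jq : (qExpand k n (jqModC k)).order = -(n : ℤ) := by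
  have hn : (0 : ℤ) < n := by exact_mod_cast Nat.pos_of_ne_zero (NeZero.ne n)
  have h1 : (qExpand k n (jqModC k)).coeff (-(n : ℤ)) = 1 := by
    have := qExpand_coeff_mul n (jqModC k) (-1)
    rw [mul_neg_one] at this
    rw [this, coeff_jqModC_neg_one]
  have hne : qExpand k n (jqModC k) ≠ 0 := by
    intro h
    rw [h, HahnSeries.coeff_zero] at h1
    exact zero_ne_one h1
  apply le_antisymm
  · exact HahnSeries.order_le_of_coeff_ne_zero (by rw [h1]; exact one_ne_zero)
  · by_contra hlt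
    rw [not_le] at hlt
    apply hne
    rw [← HahnSeries.coeff_order_eq_zero]
    by_cases hd : (n : ℤ) ∣ (qExpand k n (jqModC k)).order
    · obtain ⟨m, hm⟩ := hd
      rw [hm, qExpand_coeff_mul]
      apply coeff_jqModC_of_lt
      rw [hm] at hlt
      nlinarith
    · exact qExpand_coeff_of_not_dvd n _ hd

end Defs

section Indep

variable (n : ℕ) [NeZero n] {k : Type} [Field k] (φ : ↥(AS n) →+* k)
  (hφ : IsPrimitiveRoot (φ ⟨zetaN n, zetaN_mem_AS n⟩) n)

include hφ in
/-- `1, j̄(q^n), …, j̄(q^n)^(ψ(n)-1)` are linearly independent over `k(j̄)`. -/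
theorem linearIndependent_pow_jNk :
    LinearIndependent k⟮jk k n⟯ (fun i : Fin (dedekindPsi n) => jNk n k ^ (i : ℕ)) := by
  apply IndepOverField.linearIndependent_adjoin_of_poly
  intro P hP i
  have h1 : ∑ i : Fin (dedekindPsi n), aeval (qExpand k n (jqModC k)) (P i) *
      qExpand k (n * n) (jqModC k) ^ (i : ℕ) = 0 := by
    have h2 := congrArg (e0 n k) hP
    rw [map_sum, map_zero] at h2
    rw [← h2]
    refine Finset.sum_congr rfl fun i _ => ?_
    rw [map_mul, map_pow, e0_jNk, ← aeval_algHom_apply, e0_jk]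
  let T : (LaurentSeries k)[X] :=
    ∑ i : Fin (dedekindPsi n), C (aeval (qExpand k n (jqModC k)) (P i)) * X ^ (i : ℕ)
  have hT : ∀ m, T.coeff m ∈ Algebra.adjoin k {qExpand k n (jqModC k)} := by
    intro m
    rw [finsetSum_coeff]
    refine Subalgebra.sum_mem _ fun i _ => ?_
    rw [coeff_C_mul, coeff_X_pow]
    refine Subalgebra.mul_mem _ (aeval_mem_adjoin_singleton k _) ?_
    split_ifs
    · exact Subalgebra.one_mem _
    · exact Subalgebra.zero_mem _
  have hpos : 0 < dedekindPsi n := Nat.pos_of_ne_zero (Char0Degree.dedekindPsi_ne_zero n)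
  have hdeg : T.natDegree < dedekindPsi n := by
    by_cases hT0 : T = 0
    · rw [hT0, natDegree_zero]; exact hpos
    · exact (natDegree_lt_iff_degree_lt hT0).mpr (degree_sum_fin_lt _)
  have hroot : T.eval (qExpand k (n * n) (jqModC k)) = 0 := by
    rw [eval_finsetSum, ← h1]
    refine Finset.sum_congr rfl fun i _ => ?_
    rw [eval_mul, eval_C, eval_pow, eval_X]
  have hT0 := CruxMain.eq_zero_of_eval_eq_zero n (AS n) (zetaN_mem_AS n) (inv_mem_AS n) φ hφ T hT
    hdeg hroot
  have hci : T.coeff (i : ℕ) = aeval (qExpand k n (jqModC k)) (P i) := by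
    rw [finsetSum_coeff, Finset.sum_eq_single i]
    · rw [coeff_C_mul, coeff_X_pow, if_pos rfl, mul_one]
    · intro j _ hji
      rw [coeff_C_mul, coeff_X_pow, if_neg (fun h => hji (Fin.ext h.symm)), mul_zero]
    · intro h; exact absurd (Finset.mem_univ i) h
  rw [hT0, coeff_zero] at hci
  apply (e0 n k).toRingHom.injective
  rw [map_zero]
  show e0 n k (aeval (jk k n) (P i)) = 0
  rw [← aeval_algHom_apply, e0_jk, ← hci]

end Indep

section Family

variable (n ℓ : ℕ) [NeZero n] [Fact ℓ.Prime] (hℓn : ¬ ℓ ∣ n)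
  (k : Type) [Field k] [CharP k ℓ] [IsAlgClosed k]

include hℓn in
/-- **The cusp embeddings.** -/
theorem exists_cusp_embeddings :
    ∃ (ζ : kˣ) (ι : SL(2, ℤ) ⧸ Gamma0 n →
        (↥(modularFunctionFieldFullC k n) →ₐ[k] LaurentSeries k)),
      IsPrimitiveRoot ζ n ∧ Function.Injective ι ∧
      (∀ x, ι x (jk k n) = qExpand k n (jqModC k)) ∧
      (∀ y, ι (QuotientGroup.mk 1) y = qExpand k n (y : LaurentSeries k)) ∧
      (∀ x y, ι (ModularGroup.T⁻¹ • x) y = scale ζ (ι x y)) ∧
      Algebra.IsSeparable k⟮jk k n⟯ ↥(modularFunctionFieldFullC k n) := by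
  classical
  obtain ⟨φ, hφ⟩ := exists_residue_hom_algClosed n ℓ hℓn k
  let _ : Fintype (SL(2, ℤ) ⧸ Gamma0 n) := Fintype.ofFinite _
  have hcard : Fintype.card (SL(2, ℤ) ⧸ Gamma0 n) = dedekindPsi n := by
    rw [← Nat.card_eq_fintype_card, Fermat.Agent.Lib.Gamma0Count.card_quotient]
  have hpos : 0 < dedekindPsi n := Nat.pos_of_ne_zero (Char0Degree.dedekindPsi_ne_zero n)
  have hfr0 := finrank_fullC k n ℓ hℓn
  have hfr : Module.finrank k⟮jk k n⟯ ↥(modularFunctionFieldFullC k n) =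
      Fintype.card (SL(2, ℤ) ⧸ Gamma0 n) := by rw [hcard, hfr0]
  have hli0 := linearIndependent_pow_jNk n φ hφ
  have hli : LinearIndependent k⟮jk k n⟯
      (fun i : Fin (Fintype.card (SL(2, ℤ) ⧸ Gamma0 n)) => jNk n k ^ (i : ℕ)) := by
    rw [hcard]; exact hli0
  have hcoeff : ∀ m, (∏ x : SL(2, ℤ) ⧸ Gamma0 n, (X - C (theta n φ x))).coeff m ∈
      Algebra.adjoin k {e0 n k (jk k n)} := fun m => theta_prod_coeff_mem n φ m
  have hi₀ : theta n φ (QuotientGroup.mk 1) = e0 n k (jNk n k) := by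
    rw [e0_jNk, theta_one]
  obtain ⟨ι, hιx', hια⟩ := exists_embeddings (jk k n) (jNk n k) hli hfr (e0 n k) (theta n φ) hcoeff
    (QuotientGroup.mk 1) hi₀
  have hιx : ∀ x, ι x (jk k n) = qExpand k n (jqModC k) := hιx'
  have hext : ∀ {f g : ↥(modularFunctionFieldFullC k n) →ₐ[k] LaurentSeries k},
      f (jk k n) = g (jk k n) → f (jNk n k) = g (jNk n k) → f = g := fun hx hα =>
    algHom_ext_gen (jk k n) (jNk n k) hli0 hfr0 hpos hx hα
  have hζ : IsPrimitiveRoot (zetaK n φ) n := zetaK_isPrimitiveRoot n φ hφ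
  refine ⟨zetaK n φ, ι, hζ, ?_, hιx, ?_, ?_, ?_⟩
  · intro x y hxy
    apply theta_injective n φ hφ
    rw [← hια x, ← hια y, hxy]
  · intro y
    have h1 : ι (QuotientGroup.mk 1) = e0 n k :=
      hext (hιx _) (by rw [hια, hi₀])
    rw [h1]; rfl
  · intro x y
    have h1 : ι (ModularGroup.T⁻¹ • x) = (scaleAlgHom (zetaK n φ)).comp (ι x) := by
      apply hext
      · rw [hιx, AlgHom.comp_apply, hιx, scaleAlgHom_apply]
        ext m
        rw [scale_coeff]
        by_cases hm : (n : ℤ) ∣ m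
        · obtain ⟨c, rfl⟩ := hm
          have h2 : (zetaK n φ ^ ((n : ℤ) * c) : kˣ) = 1 := by
            rw [zpow_mul, zpow_natCast, hζ.pow_eq_one, one_zpow]
          rw [h2, Units.val_one, one_mul]
        · rw [coeff_qExpand_jq_of_not_dvd n k hm, mul_zero]
      · rw [hια, AlgHom.comp_apply, hια, scaleAlgHom_apply, theta_T_inv_smul]
    rw [h1]; rfl
  · exact isSeparable_of_injective (jk k n) (jNk n k) hli hfr (e0 n k) (theta n φ) hcoeff
      (QuotientGroup.mk 1) hi₀ (theta_injective n φ hφ)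

end Family

end Fermat.Agent.S18.CuspEmb
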